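import Mathlib

/-! Ultrafilter limits in power series rings over a compact DVR. -/

set_option autoImplicit false

namespace Fermat.Agent.Patching

open Filter IsLocalRing

/-- The ultrafilter on `ℕ` used for all patching limits. -/
noncomputable def pfilter : Filter ℕ := (hyperfilter ℕ : Filter ℕ)

instance : pfilter.NeBot := Ultrafilter.neBot _

theorem eventually_ge (k : ℕ) : ∀ᶠ n in pfilter, k ≤ n :=
  Nat.hyperfilter_le_atTop (eventually_ge_atTop k)

/-- `L` is the adic limit of `x` along the ultrafilter. -/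
def IsLim {A : Type*} [CommRing A] [IsLocalRing A] (x : ℕ → A) (L : A) : Prop :=
  ∀ k : ℕ, ∀ᶠ n in pfilter, x n - L ∈ maximalIdeal A ^ k

theorem pfilter_exists_isLim_of_compact {A : Type*} [CommRing A] [IsLocalRing A]
    [IsNoetherianRing A] [TopologicalSpace A] [IsTopologicalRing A] [CompactSpace A] [T2Space A]
    (x : ℕ → A) : ∃ L, IsLim x L := by
  obtain ⟨L, -, hL⟩ := isCompact_univ.ultrafilter_le_nhds ((hyperfilter ℕ).map x) (by simp)
  refine ⟨L, fun k => ?_⟩
  have hopen := isOpen_maximalIdeal_pow A k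
  have : {a : A | a - L ∈ maximalIdeal A ^ k} ∈ nhds L :=
    (hopen.preimage (continuous_id.sub continuous_const)).mem_nhds (by simp)
  exact hL this

section PowerSeries

variable {𝒪 : Type} [CommRing 𝒪] [IsLocalRing 𝒪] [IsNoetherianRing 𝒪]
  [IsAdicComplete (maximalIdeal 𝒪) 𝒪] [Finite (ResidueField 𝒪)] {σ : Type} [Finite σ]

theorem exists_compact_topology :
    ∃ t : TopologicalSpace 𝒪, @IsTopologicalRing 𝒪 t _ ∧ @CompactSpace 𝒪 t ∧ @T2Space 𝒪 t := by
  let w : WithIdeal 𝒪 := ⟨maximalIdeal 𝒪⟩
  have hI : IsAdic (maximalIdeal 𝒪) := rfl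
  obtain ⟨hc, ht⟩ := (IsAdic.isAdicComplete_iff hI).mp inferInstance
  refine ⟨inferInstance, inferInstance, ?_, ht⟩
  refine ⟨isCompact_iff_totallyBounded_isComplete.mpr ⟨?_, ?_⟩⟩
  · rw [totallyBounded_iff_subset_finite_iUnion_nhds_zero]
    intro U hU
    obtain ⟨n, -, hn⟩ := (IsAdic.hasBasis_nhds_zero hI).mem_iff.mp hU
    have : Finite (𝒪 ⧸ maximalIdeal 𝒪) := ‹_›
    have := Ideal.finite_quotient_pow (IsNoetherian.noetherian (maximalIdeal 𝒪)) n
    refine ⟨Set.range (Quotient.out : (𝒪 ⧸ maximalIdeal 𝒪 ^ n) → 𝒪), Set.finite_range _, ?_⟩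
    intro x _
    simp only [Set.mem_iUnion]
    refine ⟨_, ⟨Ideal.Quotient.mk _ x, rfl⟩, ?_⟩
    refine ⟨x - Quotient.out (Ideal.Quotient.mk (maximalIdeal 𝒪 ^ n) x), hn ?_, ?_⟩
    · exact Ideal.Quotient.eq.mp (Ideal.Quotient.mk_out _).symm
    · simp [vadd_eq_add]
  · exact completeSpace_iff_isComplete_univ.mp hc

theorem exists_isLim (x : ℕ → MvPowerSeries σ 𝒪) : ∃ L, IsLim x L := by
  obtain ⟨t, h1, h2, h3⟩ := exists_compact_topology (𝒪 := 𝒪)
  open scoped MvPowerSeries.WithPiTopology in
  have : CompactSpace (MvPowerSeries σ 𝒪) := Pi.compactSpace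
  open scoped MvPowerSeries.WithPiTopology in
  exact pfilter_exists_isLim_of_compact x

/-- Power series without constant term lie in the ideal of the variables. -/
theorem mem_span_X_of_constantCoeff_eq_zero {f : MvPowerSeries σ 𝒪}
    (hf : MvPowerSeries.constantCoeff f = 0) :
    f ∈ Ideal.span (Set.range (MvPowerSeries.X : σ → MvPowerSeries σ 𝒪)) := by
  classical
  obtain ⟨t, h1, h2, h3⟩ := exists_compact_topology (𝒪 := 𝒪)
  open scoped MvPowerSeries.WithPiTopology in
  have : CompactSpace (MvPowerSeries σ 𝒪) := Pi.compactSpace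
  open scoped MvPowerSeries.WithPiTopology in
  have hclosed : IsClosed (X := MvPowerSeries σ 𝒪)
      (Ideal.span (Set.range (MvPowerSeries.X : σ → MvPowerSeries σ 𝒪)) : Set _) :=
    IsNoetherianRing.isClosed_ideal _
  open scoped MvPowerSeries.WithPiTopology in
  have hsum := MvPowerSeries.WithPiTopology.hasSum_of_monomials_self f
  refine hclosed.mem_of_tendsto hsum (Eventually.of_forall fun s => Ideal.sum_mem _ fun d _ => ?_)
  by_cases hd : d = 0
  · simp [hd, hf]
  · obtain ⟨i, hi⟩ : ∃ i, d i ≠ 0 := by simpa [DFunLike.ext_iff] using hd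
    have : MvPowerSeries.monomial d (MvPowerSeries.coeff d f) =
        MvPowerSeries.monomial (d - Finsupp.single i 1) (MvPowerSeries.coeff d f) *
          MvPowerSeries.X i := by
      rw [MvPowerSeries.X, MvPowerSeries.monomial_mul_monomial, mul_one]
      congr 2
      ext j
      by_cases hj : j = i
      · subst hj; simp; omega
      · simp [hj]
    rw [this]
    exact Ideal.mul_mem_left _ _ (Ideal.subset_span ⟨i, rfl⟩)

end PowerSeries

/-- A finite module over a local ring is killed by the power of the maximal ideal of exponent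
its cardinality. -/
theorem maximalIdeal_pow_card_smul_top {A Q : Type*} [CommRing A] [IsLocalRing A]
    [AddCommGroup Q] [Module A Q] [Finite Q] :
    maximalIdeal A ^ Nat.card Q • (⊤ : Submodule A Q) = ⊥ := by
  have key : ∀ j : ℕ, maximalIdeal A ^ j • (⊤ : Submodule A Q) = ⊥ ∨
      Nat.card ↥(maximalIdeal A ^ j • (⊤ : Submodule A Q)) + j ≤ Nat.card Q := by
    intro j
    induction j with
    | zero =>
      right
      simp [pow_zero, Ideal.one_eq_top]
    | succ j ih =>
      rcases ih with ih | ih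
      · left
        rw [pow_succ', Submodule.mul_smul, ih, Submodule.smul_bot]
      · rw [pow_succ', Submodule.mul_smul]
        generalize maximalIdeal A ^ j • (⊤ : Submodule A Q) = P at ih ⊢
        by_cases he : maximalIdeal A • P = P
        · left
          rw [he]
          exact Submodule.eq_bot_of_le_smul_of_le_jacobson_bot (maximalIdeal A) P
            (Submodule.fg_def.mpr ⟨P, Set.toFinite _, Submodule.span_eq P⟩) he.ge
            (IsLocalRing.maximalIdeal_le_jacobson _)
        · right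
          have hlt : ((maximalIdeal A • P : Submodule A Q) : Set Q) ⊂ (P : Set Q) :=
            lt_of_le_of_ne Submodule.smul_le_right (fun h => he (SetLike.coe_injective h))
          have := Set.ncard_lt_ncard hlt (Set.toFinite _)
          simp only [← Nat.card_coe_set_eq, SetLike.coe_sort_coe] at this
          omega
  rcases key (Nat.card Q) with h | h
  · exact h
  · exfalso
    have : 0 < Nat.card ↥(maximalIdeal A ^ Nat.card Q • (⊤ : Submodule A Q)) := Nat.card_pos
    omega

theorem one_add_pow_prime_pow_sub_one_mem {P : Type*} [CommRing P] [IsLocalRing P] {ℓ : ℕ}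
    (hℓ : (ℓ : P) ∈ maximalIdeal P) {x : P} (hx : x ∈ maximalIdeal P) (n : ℕ) :
    (1 + x) ^ ℓ ^ n - 1 ∈ maximalIdeal P ^ (n + 1) := by
  induction n with
  | zero => simpa using hx
  | succ n ih =>
    rw [pow_succ ℓ, pow_mul, pow_succ _ (n + 1), ← mul_geom_sum]
    refine Ideal.mul_mem_mul ih ?_
    set y := (1 + x) ^ ℓ ^ n
    have hy : y - 1 ∈ maximalIdeal P := Ideal.pow_le_self (Nat.succ_ne_zero n) ih
    rw [show ∑ i ∈ Finset.range ℓ, y ^ i =
      ∑ i ∈ Finset.range ℓ, (y ^ i - 1) + (ℓ : P) by simp [Finset.sum_sub_distrib]]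
    exact add_mem (Ideal.sum_mem _ fun i _ =>
      Ideal.mem_of_dvd _ (sub_one_dvd_pow_sub_one y i) hy) hℓ

end Fermat.Agent.Patching
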