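import Fermat.Prelude.Def_Algebra_PatchingDatum
import Fermat.Agent.Patching.Compact

/-! The patching argument: a patching datum yields a patching level with no relations. -/

set_option autoImplicit false

namespace Fermat.Agent.Patching

open IsLocalRing Filter MvPowerSeries

variable {𝒪 : Type} [CommRing 𝒪] [IsLocalRing 𝒪] [IsNoetherianRing 𝒪]
  [IsAdicComplete (maximalIdeal 𝒪) 𝒪] [Finite (ResidueField 𝒪)]

local notation "Λ[" r "]" => MvPowerSeries (Fin r) 𝒪

/-- The relation ideal of the `n`-th level. -/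
noncomputable def relIdeal (𝒪 : Type) [CommRing 𝒪] (ℓ r n : ℕ) : Ideal (MvPowerSeries (Fin r) 𝒪) :=
  Ideal.span (Set.range fun j : Fin r =>
    ((1 + MvPowerSeries.X j) ^ (ℓ ^ n) - 1 : MvPowerSeries (Fin r) 𝒪))

omit [IsNoetherianRing 𝒪] [IsAdicComplete (maximalIdeal 𝒪) 𝒪] [Finite (ResidueField 𝒪)] in
theorem mem_maximalIdeal_iff_constantCoeff {r : ℕ} (f : Λ[r]) :
    f ∈ maximalIdeal Λ[r] ↔ constantCoeff f ∈ maximalIdeal 𝒪 := by
  simp only [IsLocalRing.mem_maximalIdeal, mem_nonunits_iff,
    MvPowerSeries.isUnit_iff_constantCoeff]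

omit [IsNoetherianRing 𝒪] [IsAdicComplete (maximalIdeal 𝒪) 𝒪] [Finite (ResidueField 𝒪)] in
theorem relIdeal_le {ℓ r : ℕ} (hℓ : (ℓ : 𝒪) ∈ maximalIdeal 𝒪) {n k : ℕ} (h : k ≤ n) :
    relIdeal 𝒪 ℓ r n ≤ maximalIdeal Λ[r] ^ k := by
  refine le_trans ?_ (Ideal.pow_le_pow_right (show k ≤ n + 1 by omega))
  rw [relIdeal, Ideal.span_le]
  rintro _ ⟨j, rfl⟩
  exact one_add_pow_prime_pow_sub_one_mem
    (by rw [mem_maximalIdeal_iff_constantCoeff, map_natCast]; exact hℓ)
    (by rw [mem_maximalIdeal_iff_constantCoeff, constantCoeff_X]; exact zero_mem _) n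

/-- A patching level with normalised basis: generators mapping to the fixed basis `e` of `M`. -/
structure NormLevel (𝒪 : Type) [CommRing 𝒪] (ℓ r : ℕ) (R : Type) [CommRing R] [Algebra 𝒪 R]
    (M : Type) [AddCommGroup M] [Module R M] {d : ℕ} (e : Fin d → M) (n : ℕ) : Type 1 where
  lev : Algebra.PatchingLevel 𝒪 r R M (Ideal.span (Set.range fun j : Fin r =>
      ((1 + MvPowerSeries.X j) ^ (ℓ ^ n) - 1 : MvPowerSeries (Fin r) 𝒪)))
  par : (Fin d → MvPowerSeries (Fin r) 𝒪) →+ lev.N
  par_smul : ∀ (s : MvPowerSeries (Fin r) 𝒪) c, par (s • c) = lev.φ s • par c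
  par_surjective : Function.Surjective par
  par_eq_zero : ∀ c, par c = 0 → ∀ i, c i ∈ relIdeal 𝒪 ℓ r n
  π_par : ∀ c, lev.π (par c) = ∑ i, algebraMap 𝒪 R (MvPowerSeries.constantCoeff (c i)) • e i

variable {ℓ r : ℕ} {R : Type} [CommRing R] [Algebra 𝒪 R]
  {M : Type} [AddCommGroup M] [Module R M]

section Level

variable {J : Ideal (MvPowerSeries (Fin r) 𝒪)} (L : Algebra.PatchingLevel 𝒪 r R M J)

theorem ψ_φ_eq (f : Λ[r]) : L.ψ (L.φ f) = algebraMap 𝒪 R (constantCoeff f) := by
  have hle : Ideal.span (Set.range (X : Fin r → Λ[r])) ≤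
      RingHom.ker ((L.ψ.comp L.φ : Λ[r] →ₐ[𝒪] R) : Λ[r] →+* R) :=
    Ideal.span_le.mpr (by rintro _ ⟨i, rfl⟩; exact L.ψ_φ_X i)
  have h : f - algebraMap 𝒪 Λ[r] (constantCoeff f) ∈ Ideal.span (Set.range (X : Fin r → Λ[r])) :=
    mem_span_X_of_constantCoeff_eq_zero (by simp [MvPowerSeries.algebraMap_apply])
  have h2 := RingHom.mem_ker.mp (hle h)
  rw [map_sub, sub_eq_zero] at h2
  exact h2.trans ((L.ψ.comp L.φ).commutes _)

/-- The parametrisation of a level by vectors of power series. -/
noncomputable def levelPar : (Fin L.d → Λ[r]) →+ L.N where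
  toFun c := ∑ i, L.φ (c i) • L.b i
  map_zero' := by simp
  map_add' c c' := by simp [add_smul, Finset.sum_add_distrib]

theorem π_levelPar (c : Fin L.d → Λ[r]) :
    L.π (levelPar L c) = ∑ i, algebraMap 𝒪 R (constantCoeff (c i)) • L.π (L.b i) := by
  simp [levelPar, map_sum, L.π_smul, ψ_φ_eq]

theorem basis_spans (x : M) :
    ∃ a : Fin L.d → 𝒪, x = ∑ i, algebraMap 𝒪 R (a i) • L.π (L.b i) := by
  obtain ⟨y, rfl⟩ := L.π_surjective x
  obtain ⟨c, hc⟩ := L.b_span y
  exact ⟨fun i => constantCoeff (c i), by rw [← π_levelPar, hc]; rfl⟩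

theorem basis_indep (hJ : J ≤ Ideal.span (Set.range (X : Fin r → Λ[r]))) (a : Fin L.d → 𝒪)
    (h : ∑ i, algebraMap 𝒪 R (a i) • L.π (L.b i) = 0) : a = 0 := by
  let c : Fin L.d → Λ[r] := fun i => algebraMap 𝒪 _ (a i)
  have h0 : L.π (levelPar L c) = 0 := by
    rw [π_levelPar]; simpa [c, MvPowerSeries.algebraMap_apply] using h
  rw [L.ker_π] at h0
  -- every element of `span (φ X) • N` has coordinates in the ideal of variables
  let V : AddSubgroup (Fin L.d → Λ[r]) :=
    { carrier := {v | ∀ i, v i ∈ Ideal.span (Set.range (X : Fin r → Λ[r]))}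
      add_mem' := fun hv hw i => add_mem (hv i) (hw i)
      zero_mem' := fun i => zero_mem _
      neg_mem' := fun hv i => neg_mem (hv i) }
  have hmem : levelPar L c ∈ V.map (levelPar L) := by
    refine Submodule.smul_induction_on h0 ?_ fun x y hx hy => add_mem hx hy
    intro s hs x hx
    clear hx
    revert x
    refine Submodule.span_induction ?_ ?_ ?_ ?_ hs
    · rintro _ ⟨j, rfl⟩ x
      obtain ⟨w, rfl⟩ := L.b_span x
      refine ⟨fun i => X j * w i, fun i => Ideal.mul_mem_right _ _ (Ideal.subset_span ⟨j, rfl⟩), ?_⟩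
      simp [levelPar, Finset.smul_sum, mul_smul]
    · intro x; simpa using zero_mem _
    · intro s t _ _ hs' ht' x; rw [add_smul]; exact add_mem (hs' x) (ht' x)
    · intro a s _ hs' x
      rw [smul_eq_mul, mul_comm, mul_smul]
      exact hs' (a • x)
  obtain ⟨v, hv, hv'⟩ := hmem
  have hz : levelPar L (c - v) = 0 := by rw [map_sub, hv', sub_self]
  funext i
  have h1 : c i - v i ∈ J := (L.b_rel (c - v)).mp hz i
  have h2 := add_mem (hJ h1) (hv i)
  rw [sub_add_cancel] at h2
  have hle : Ideal.span (Set.range (X : Fin r → Λ[r])) ≤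
      RingHom.ker (constantCoeff : Λ[r] →+* 𝒪) :=
    Ideal.span_le.mpr (by rintro _ ⟨j, rfl⟩; exact constantCoeff_X j)
  simpa [c, MvPowerSeries.algebraMap_apply] using hle h2

end Level

omit [IsLocalRing 𝒪] [IsNoetherianRing 𝒪] [IsAdicComplete (maximalIdeal 𝒪) 𝒪]
  [Finite (ResidueField 𝒪)] in
theorem relIdeal_le_span_X (n : ℕ) :
    relIdeal 𝒪 ℓ r n ≤ Ideal.span (Set.range (X : Fin r → Λ[r])) := by
  rw [relIdeal, Ideal.span_le]
  rintro _ ⟨j, rfl⟩
  refine Ideal.mem_of_dvd _ (sub_one_dvd_pow_sub_one _ _) ?_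
  rw [add_sub_cancel_left]
  exact Ideal.subset_span ⟨j, rfl⟩

/-- Underlying group of the patched module; a synonym, to carry the limit module structure. -/
def PatchModule (𝒪 : Type) [CommRing 𝒪] (r d : ℕ) : Type := Fin d → MvPowerSeries (Fin r) 𝒪

noncomputable instance (𝒪 : Type) [CommRing 𝒪] (r d : ℕ) : AddCommGroup (PatchModule 𝒪 r d) :=
  inferInstanceAs (AddCommGroup (Fin d → MvPowerSeries (Fin r) 𝒪))

theorem exists_normLevel [Nontrivial R] (D : Algebra.PatchingDatum 𝒪 ℓ r R M) :
    ∃ (d : ℕ) (e : Fin d → M), Function.Injective (fun a : Fin d → 𝒪 =>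
        ∑ i, algebraMap 𝒪 R (a i) • e i) ∧
      Nonempty (∀ n, NormLevel 𝒪 ℓ r R M e n) := by
  let : Module 𝒪 M := Module.compHom M (algebraMap 𝒪 R)
  have hsm : ∀ (a : 𝒪) (x : M), a • x = algebraMap 𝒪 R a • x := fun _ _ => rfl
  have hb : ∀ n, ∃ B : Module.Basis (Fin (D.level n).d) 𝒪 M,
      ∀ i, B i = (D.level n).π ((D.level n).b i) := fun n => by
    refine ⟨Module.Basis.mk (v := fun i => (D.level n).π ((D.level n).b i)) ?_ ?_, fun i => ?_⟩
    · rw [Fintype.linearIndependent_iff]
      intro g hg i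
      exact congrFun (basis_indep (D.level n) (relIdeal_le_span_X n) g
        (by simpa [hsm] using hg)) i
    · intro x _
      obtain ⟨a, rfl⟩ := basis_spans (D.level n) x
      exact Submodule.sum_mem _ fun i _ => by
        rw [← hsm]; exact Submodule.smul_mem _ _ (Submodule.subset_span ⟨i, rfl⟩)
    · simp
  choose B hB using hb
  refine ⟨_, fun i => B 0 i, ?_, ?_⟩
  · intro a a' h
    funext i
    have := congrArg (fun x => (B 0).repr x i) h
    simpa [← hsm, (B 0).repr_sum_self, Finsupp.single_apply] using this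
  refine ⟨fun n => ?_⟩
  have hd : (D.level n).d = (D.level 0).d := by
    simpa using Fintype.card_congr ((B n).indexEquiv (B 0))
  let B' := (B n).reindex (finCongr hd)
  let G := (B'.toMatrix (B 0)).map (MvPowerSeries.C (σ := Fin r) (R := 𝒪))
  let G' := ((B 0).toMatrix B').map (MvPowerSeries.C (σ := Fin r) (R := 𝒪))
  have h1 : G * G' = 1 := by
    simp only [G, G', ← Matrix.map_mul, Module.Basis.toMatrix_mul_toMatrix_flip,
      Matrix.map_one _ (map_zero _) (map_one _)]
  have h2 : G' * G = 1 := by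
    simp only [G, G', ← Matrix.map_mul, Module.Basis.toMatrix_mul_toMatrix_flip,
      Matrix.map_one _ (map_zero _) (map_one _)]
  -- change of coordinates followed by the given parametrisation
  let T : (Fin (D.level 0).d → Λ[r]) →+ (Fin (D.level n).d → Λ[r]) :=
    { toFun := fun c i => (G.mulVec c) (finCongr hd i)
      map_zero' := by ext; simp
      map_add' := fun c c' => by ext i; simp [Matrix.mulVec_add] }
  refine
    { lev := D.level n
      par := (levelPar (D.level n)).comp T
      par_smul := fun s c => ?_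
      par_surjective := fun x => ?_
      par_eq_zero := fun c hc => ?_
      π_par := fun c => ?_ }
  · simp [levelPar, T, Finset.smul_sum, Matrix.mulVec_smul, mul_smul]
  · obtain ⟨c, rfl⟩ := (D.level n).b_span x
    refine ⟨G'.mulVec (fun j => c ((finCongr hd).symm j)), ?_⟩
    simp [levelPar, T, Matrix.mulVec_mulVec, h1]
  · intro i
    have h := ((D.level n).b_rel (T c)).mp hc
    have hc' : c = G'.mulVec (G.mulVec c) := by rw [Matrix.mulVec_mulVec, h2, Matrix.one_mulVec]
    rw [hc']
    rw [show G'.mulVec (G.mulVec c) i = ∑ j, G' i j * G.mulVec c j from rfl]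
    refine Ideal.sum_mem (relIdeal 𝒪 ℓ r n) fun j _ => Ideal.mul_mem_left _ _ ?_
    simpa [T, relIdeal] using h ((finCongr hd).symm j)
  · change (D.level n).π (levelPar (D.level n) (T c)) = _
    rw [π_levelPar]
    have hconst : ∀ i, constantCoeff (T c i) =
        ∑ j, B'.toMatrix (B 0) (finCongr hd i) j * constantCoeff (c j) := fun i => by
      simp [T, G, Matrix.mulVec, dotProduct, map_sum]
    simp only [← hsm, hconst, ← hB, Finset.sum_smul]
    rw [Finset.sum_comm]
    refine Finset.sum_congr rfl fun j _ => ?_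
    simp only [mul_comm _ (constantCoeff (c j)), mul_smul, ← Finset.smul_sum]
    congr 1
    rw [← Equiv.sum_comp (finCongr hd).symm]
    simpa [B'] using B'.sum_toMatrix_smul_self (B 0) j

section Limit

variable {d : ℕ} {e : Fin d → M} (L : ∀ n, NormLevel 𝒪 ℓ r R M e n)

/-- `y` represents `f • c` at level `n`. -/
def Rep (n : ℕ) (f : Λ[r]) (c y : Fin d → Λ[r]) : Prop :=
  (L n).par y = f • (L n).par c

/-- `z` is the limit of `f • c`. -/
def IsLimAct (f : Λ[r]) (c z : Fin d → Λ[r]) : Prop :=
  ∀ k : ℕ, ∀ᶠ n in pfilter, ∃ y, Rep L n f c y ∧ ∀ i, y i - z i ∈ maximalIdeal Λ[r] ^ k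

theorem exists_isLimAct (f : Λ[r]) (c : Fin d → Λ[r]) : ∃ z, IsLimAct L f c z := by
  choose y hy using fun n => (L n).par_surjective (f • (L n).par c)
  choose z hz using fun i => exists_isLim (fun n => y n i)
  refine ⟨z, fun k => ?_⟩
  filter_upwards [eventually_all.mpr fun i => hz i k] with n hn
  exact ⟨y n, hy n, hn⟩

theorem eq_of_forall_sub_mem {A : Type*} [CommRing A] [IsLocalRing A] [IsNoetherianRing A]
    {a b : A} (h : ∀ k, a - b ∈ maximalIdeal A ^ k) : a = b := by
  have : a - b ∈ ⨅ k, maximalIdeal A ^ k := Ideal.mem_iInf.mpr h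
  rw [Ideal.iInf_pow_eq_bot_of_isLocalRing _ (Ideal.IsPrime.ne_top inferInstance)] at this
  exact sub_eq_zero.mp this

theorem IsLimAct.unique (hℓ : (ℓ : 𝒪) ∈ maximalIdeal 𝒪) {f : Λ[r]} {c z z' : Fin d → Λ[r]}
    (h : IsLimAct L f c z) (h' : IsLimAct L f c z') : z = z' := by
  funext i
  refine eq_of_forall_sub_mem fun k => ?_
  obtain ⟨n, hn, ⟨y, hy, hyz⟩, y', hy', hyz'⟩ :=
    ((eventually_ge k).and ((h k).and (h' k))).exists
  have h0 : (L n).par (y - y') = 0 := by rw [map_sub, hy, hy', sub_self]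
  have h1 := relIdeal_le hℓ hn ((L n).par_eq_zero _ h0 i)
  have h2 := add_mem (sub_mem h1 (hyz i)) (hyz' i)
  convert h2 using 1
  simp only [Pi.sub_apply]
  ring

/-- The limiting action. -/
noncomputable def act (f : Λ[r]) (c : Fin d → Λ[r]) : Fin d → Λ[r] :=
  Classical.choose (exists_isLimAct L f c)

theorem act_spec (f : Λ[r]) (c : Fin d → Λ[r]) : IsLimAct L f c (act L f c) :=
  Classical.choose_spec (exists_isLimAct L f c)

variable (hℓ : (ℓ : 𝒪) ∈ maximalIdeal 𝒪)
include hℓ

theorem act_eq {f : Λ[r]} {c z : Fin d → Λ[r]} (h : IsLimAct L f c z) : act L f c = z :=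
  (act_spec L f c).unique L hℓ h

theorem act_add_right (f : Λ[r]) (c c' : Fin d → Λ[r]) :
    act L f (c + c') = act L f c + act L f c' := by
  refine act_eq L hℓ fun k => ?_
  filter_upwards [act_spec L f c k, act_spec L f c' k] with n ⟨y, hy, hy1⟩ ⟨y', hy', hy1'⟩
  refine ⟨y + y', by simp only [Rep] at *; rw [map_add, map_add, hy, hy', smul_add],
    fun i => ?_⟩
  convert add_mem (hy1 i) (hy1' i) using 1
  simp only [Pi.add_apply]
  ring

theorem act_add_left (f g : Λ[r]) (c : Fin d → Λ[r]) :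
    act L (f + g) c = act L f c + act L g c := by
  refine act_eq L hℓ fun k => ?_
  filter_upwards [act_spec L f c k, act_spec L g c k] with n ⟨y, hy, hy1⟩ ⟨y', hy', hy1'⟩
  refine ⟨y + y', by simp only [Rep] at *; rw [map_add, hy, hy', add_smul], fun i => ?_⟩
  convert add_mem (hy1 i) (hy1' i) using 1
  simp only [Pi.add_apply]
  ring

theorem act_one (c : Fin d → Λ[r]) : act L 1 c = c :=
  act_eq L hℓ fun k => Eventually.of_forall fun n => ⟨c, (one_smul _ _).symm, fun i => by simp⟩

omit hℓ in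
theorem act_mem_pow {k : ℕ} (n : ℕ) (f : Λ[r]) {v : Fin d → Λ[r]}
    (hv : ∀ i, v i ∈ maximalIdeal Λ[r] ^ k) :
    ∃ w, Rep L n f v w ∧ ∀ i, w i ∈ maximalIdeal Λ[r] ^ k := by
  choose u hu using fun j : Fin d => (L n).par_surjective (f • (L n).par (Pi.single j 1))
  refine ⟨∑ j, v j • u j, ?_, fun i => ?_⟩
  · have hv' : v = ∑ j, v j • (Pi.single j 1 : Fin d → Λ[r]) := pi_eq_sum_univ' v
    unfold Rep
    conv_rhs => rw [hv']
    simp only [map_sum, (L n).par_smul, hu, Finset.smul_sum]
    exact Finset.sum_congr rfl fun j _ =>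
      smul_comm ((L n).lev.φ (v j)) f ((L n).par (Pi.single j 1))
  · rw [Finset.sum_apply]
    exact Ideal.sum_mem _ fun j _ => Ideal.mul_mem_right _ _ (hv j)

theorem act_mul (f g : Λ[r]) (c : Fin d → Λ[r]) :
    act L (f * g) c = act L f (act L g c) := by
  refine act_eq L hℓ fun k => ?_
  filter_upwards [act_spec L f (act L g c) k, act_spec L g c k] with n ⟨y, hy, hy1⟩ ⟨y', hy', hy1'⟩
  obtain ⟨w, hw, hw1⟩ := act_mem_pow L n f (v := y' - act L g c) hy1'
  refine ⟨y + w, ?_, fun i => ?_⟩
  · simp only [Rep] at *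
    rw [map_add, hy, hw, ← smul_add, ← map_add, add_sub_cancel, hy', mul_smul]
  · convert add_mem (hy1 i) (hw1 i) using 1
    simp only [Pi.add_apply]
    ring

/-- Uniform continuity of the actions at all deep enough levels. -/
theorem exists_pow_act_mem (k : ℕ) : ∃ K, ∀ n, k ≤ n → ∀ f ∈ maximalIdeal Λ[r] ^ K,
    ∀ c : Fin d → Λ[r], ∃ w, Rep L n f c w ∧ ∀ i, w i ∈ maximalIdeal Λ[r] ^ k := by
  have hfinA : Finite (Λ[r] ⧸ maximalIdeal Λ[r] ^ k) := by
    obtain ⟨t, h1, h2, h3⟩ := exists_compact_topology (𝒪 := 𝒪)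
    open scoped MvPowerSeries.WithPiTopology in
    have : CompactSpace Λ[r] := Pi.compactSpace
    open scoped MvPowerSeries.WithPiTopology in
    exact IsLocalRing.isOpen_iff_finite_quotient.mp (isOpen_maximalIdeal_pow Λ[r] k)
  refine ⟨Nat.card (Fin d → Λ[r] ⧸ maximalIdeal Λ[r] ^ k), fun n hn f hf c => ?_⟩
  let W : Submodule Λ[r] (L n).lev.N :=
    { carrier := {x | ∃ v, (∀ i, v i ∈ maximalIdeal Λ[r] ^ k) ∧ (L n).par v = x}
      add_mem' := by
        rintro _ _ ⟨v, hv, rfl⟩ ⟨w, hw, rfl⟩
        exact ⟨v + w, fun i => add_mem (hv i) (hw i), map_add _ _ _⟩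
      zero_mem' := ⟨0, fun i => zero_mem _, map_zero _⟩
      smul_mem' := by
        rintro a _ ⟨v, hv, rfl⟩
        obtain ⟨w, hw, hw'⟩ := act_mem_pow L n a hv
        exact ⟨w, hw', hw⟩ }
  let q : (Fin d → Λ[r] ⧸ maximalIdeal Λ[r] ^ k) → (L n).lev.N ⧸ W :=
    fun v => Submodule.Quotient.mk ((L n).par fun i => (v i).out)
  have hq : Function.Surjective q := by
    intro x
    obtain ⟨x, rfl⟩ := Submodule.Quotient.mk_surjective W x
    obtain ⟨v, rfl⟩ := (L n).par_surjective x
    refine ⟨fun i => Ideal.Quotient.mk _ (v i), (Submodule.Quotient.eq W).mpr ⟨_, ?_, map_sub _ _ _⟩⟩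
    exact fun i => Ideal.Quotient.eq.mp (Ideal.Quotient.mk_out _)
  have : Finite ((L n).lev.N ⧸ W) := Finite.of_surjective q hq
  have hle := Nat.card_le_card_of_surjective q hq
  have hmem : f • (Submodule.Quotient.mk ((L n).par c) : (L n).lev.N ⧸ W) ∈
      maximalIdeal Λ[r] ^ Nat.card ((L n).lev.N ⧸ W) •
        (⊤ : Submodule Λ[r] ((L n).lev.N ⧸ W)) :=
    Submodule.smul_mem_smul (Ideal.pow_le_pow_right hle hf) trivial
  rw [maximalIdeal_pow_card_smul_top, Submodule.mem_bot, ← Submodule.Quotient.mk_smul,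
    Submodule.Quotient.mk_eq_zero] at hmem
  obtain ⟨v, hv, hv'⟩ := hmem
  exact ⟨v, hv', hv⟩

end Limit

/-- **Patching.** A patching datum over a complete Noetherian local ring with finite residue field
of residue characteristic `ℓ` yields a patching level without relations. -/
theorem nonempty_patchingLevel_bot [Nontrivial R] (hℓ : (ℓ : 𝒪) ∈ maximalIdeal 𝒪)
    (D : Algebra.PatchingDatum 𝒪 ℓ r R M) :
    Nonempty (Algebra.PatchingLevel 𝒪 r R M (⊥ : Ideal Λ[r])) := by
  classical
  obtain ⟨d, e, he, ⟨L⟩⟩ := exists_normLevel D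
  have : IsLocalRing R := IsLocalRing.of_surjective' ((L 0).lev.ψ : Λ[r] →+* R)
    (L 0).lev.ψ_surjective
  have : IsNoetherianRing R :=
    isNoetherianRing_of_surjective Λ[r] R ((L 0).lev.ψ : Λ[r] →+* R) (L 0).lev.ψ_surjective
  have hψ : ∀ n k, ∀ f ∈ maximalIdeal Λ[r] ^ k, (L n).lev.ψ f ∈ maximalIdeal R ^ k := by
    intro n k f hf
    let g : Λ[r] →+* R := (L n).lev.ψ
    have : IsLocalHom g := IsLocalHom.of_surjective g (L n).lev.ψ_surjective
    have hle : (maximalIdeal Λ[r] ^ k).map g ≤ maximalIdeal R ^ k := by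
      rw [Ideal.map_pow]
      exact Ideal.pow_right_mono
        (Ideal.map_le_iff_le_comap.mpr fun a ha => Ideal.mem_comap.mpr (map_nonunit g a ha)) k
    exact hle (Ideal.mem_map_of_mem g hf)
  have hRlim : ∀ x : ℕ → R, ∃ a, IsLim x a := by
    intro x
    choose y hy using fun n => (L 0).lev.ψ_surjective (x n)
    obtain ⟨a, ha⟩ := exists_isLim y
    refine ⟨(L 0).lev.ψ a, fun k => ?_⟩
    filter_upwards [ha k] with n hn
    rw [← hy, ← map_sub]
    exact hψ 0 k _ hn
  -- limits of `φ` and `ψ`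
  choose φv hφv using fun s => exists_isLim (fun n => (L n).lev.φ s)
  choose ψv hψv using fun f => hRlim (fun n => (L n).lev.ψ f)
  have limUnique : ∀ {A : Type} [CommRing A] [IsLocalRing A] [IsNoetherianRing A] {x : ℕ → A}
      {a b : A}, IsLim x a → IsLim x b → a = b := by
    intro A _ _ _ x a b ha hb
    refine eq_of_forall_sub_mem fun k => ?_
    obtain ⟨n, h1, h2⟩ := ((ha k).and (hb k)).exists
    simpa using sub_mem h2 h1
  have limConst : ∀ {A : Type} [CommRing A] [IsLocalRing A] {x : ℕ → A} {a : A},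
      (∀ n, x n = a) → IsLim x a := fun h k => Eventually.of_forall fun n => by simp [h]
  have limAdd : ∀ {A : Type} [CommRing A] [IsLocalRing A] {x y : ℕ → A} {a b : A},
      IsLim x a → IsLim y b → IsLim (fun n => x n + y n) (a + b) := by
    intro A _ _ x y a b ha hb k
    filter_upwards [ha k, hb k] with n h1 h2
    convert add_mem h1 h2 using 1
    ring
  have limMul : ∀ {A : Type} [CommRing A] [IsLocalRing A] {x y : ℕ → A} {a b : A},
      IsLim x a → IsLim y b → IsLim (fun n => x n * y n) (a * b) := by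
    intro A _ _ x y a b ha hb k
    filter_upwards [ha k, hb k] with n h1 h2
    convert add_mem (Ideal.mul_mem_right (y n) _ h1) (Ideal.mul_mem_left _ a h2) using 1
    ring
  let φ : Λ[r] →ₐ[𝒪] Λ[r] :=
    { toFun := φv
      map_one' := limUnique (hφv 1) (limConst fun n => map_one _)
      map_mul' := fun s t => limUnique (hφv (s * t))
        (by simpa only [map_mul] using limMul (hφv s) (hφv t))
      map_zero' := limUnique (hφv 0) (limConst fun n => map_zero _)
      map_add' := fun s t => limUnique (hφv (s + t))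
        (by simpa only [map_add] using limAdd (hφv s) (hφv t))
      commutes' := fun a => limUnique (hφv _) (limConst fun n => AlgHom.commutes _ _) }
  let ψ : Λ[r] →ₐ[𝒪] R :=
    { toFun := ψv
      map_one' := limUnique (hψv 1) (limConst fun n => map_one _)
      map_mul' := fun s t => limUnique (hψv (s * t))
        (by simpa only [map_mul] using limMul (hψv s) (hψv t))
      map_zero' := limUnique (hψv 0) (limConst fun n => map_zero _)
      map_add' := fun s t => limUnique (hψv (s + t))
        (by simpa only [map_add] using limAdd (hψv s) (hψv t))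
      commutes' := fun a => limUnique (hψv _) (limConst fun n => AlgHom.commutes _ _) }
  have hψ_surj : Function.Surjective ψ := by
    intro y
    choose f hf using fun n => (L n).lev.ψ_surjective y
    obtain ⟨a, ha⟩ := exists_isLim f
    refine ⟨a, eq_of_forall_sub_mem fun k => ?_⟩
    obtain ⟨n, h1, h2⟩ := ((ha k).and (hψv a k)).exists
    have h3 := hψ n k _ h1
    rw [map_sub, hf] at h3
    have h4 := neg_mem (add_mem h2 h3)
    convert h4 using 1
    simp [ψ]
  have hψφ : ∀ i, ψ (φ (X i)) = 0 := by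
    intro i
    refine eq_of_forall_sub_mem fun k => ?_
    obtain ⟨n, h1, h2⟩ := ((hφv (X i) k).and (hψv (φv (X i)) k)).exists
    have h3 := hψ n k _ h1
    rw [map_sub, (L n).lev.ψ_φ_X] at h3
    convert neg_mem (add_mem h2 h3) using 1
    simp [φ, ψ]
  let T : Λ[r] →+* AddMonoid.End (PatchModule 𝒪 r d) :=
    { toFun := fun f => AddMonoidHom.mk' (act L f) (act_add_right L hℓ f)
      map_one' := AddMonoidHom.ext (act_one L hℓ)
      map_mul' := fun f g => AddMonoidHom.ext (act_mul L hℓ f g)
      map_zero' := AddMonoidHom.ext fun c => by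
        have h := act_add_left L hℓ 0 0 c
        rw [add_zero] at h
        exact left_eq_add.mp h
      map_add' := fun f g => AddMonoidHom.ext (act_add_left L hℓ f g) }
  -- the limit action through `φ` is multiplication
  have hTφ : ∀ s c, act L (φ s) c = s • c := by
    intro s c
    refine act_eq L hℓ fun k => ?_
    obtain ⟨K, hK⟩ := exists_pow_act_mem L hℓ k
    filter_upwards [eventually_ge k, hφv s K] with n hn hs
    obtain ⟨w, hw, hw1⟩ := hK n hn _ hs c
    refine ⟨s • c - w, ?_, fun i => ?_⟩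
    · simp only [Rep] at *
      rw [map_sub, (L n).par_smul, hw, sub_smul, sub_sub_cancel]
      rfl
    · simpa using neg_mem (hw1 i)
  let πv : (Fin d → Λ[r]) →+ M :=
    { toFun := fun c => ∑ i, algebraMap 𝒪 R (constantCoeff (c i)) • e i
      map_zero' := by simp
      map_add' := fun c c' => by simp [add_smul, Finset.sum_add_distrib] }
  have hπ_surj : Function.Surjective πv := by
    intro x
    obtain ⟨y, rfl⟩ := (L 0).lev.π_surjective x
    obtain ⟨c, rfl⟩ := (L 0).par_surjective y
    exact ⟨c, ((L 0).π_par c).symm⟩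
  have : Module.Finite R M := by
    refine Module.Finite.of_surjective (Fintype.linearCombination R e) fun x => ?_
    obtain ⟨c, rfl⟩ := hπ_surj x
    exact ⟨fun i => algebraMap 𝒪 R (constantCoeff (c i)), by
      simp [Fintype.linearCombination_apply, πv]⟩
  have hπsmul : ∀ f c, πv (act L f c) = ψ f • πv c := by
    intro f c
    have : πv (act L f c) - ψ f • πv c ∈ ⨅ k, maximalIdeal R ^ k • (⊤ : Submodule R M) := by
      rw [Submodule.mem_iInf]
      intro k
      obtain ⟨n, h1, y, hy, hy1⟩ := ((hψv f k).and (act_spec L f c k)).exists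
      have h2 : πv y = (L n).lev.ψ f • πv c := by
        have h := congrArg (L n).lev.π hy
        rw [(L n).lev.π_smul, (L n).π_par, (L n).π_par] at h
        exact h
      have h3 : πv (y - act L f c) ∈ maximalIdeal R ^ k • (⊤ : Submodule R M) := by
        change (∑ i, algebraMap 𝒪 R (constantCoeff ((y - act L f c) i)) • e i) ∈ _
        refine Submodule.sum_mem _ fun i _ =>
          Submodule.smul_mem_smul (I := maximalIdeal R ^ k) (N := (⊤ : Submodule R M))
            ?_ Submodule.mem_top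
        have h4 : constantCoeff ((y - act L f c) i) ∈ maximalIdeal 𝒪 ^ k := by
          have hle : (maximalIdeal Λ[r] ^ k).map (constantCoeff : Λ[r] →+* 𝒪) ≤
              maximalIdeal 𝒪 ^ k := by
            rw [Ideal.map_pow]
            exact Ideal.pow_right_mono (Ideal.map_le_iff_le_comap.mpr fun a ha =>
              Ideal.mem_comap.mpr ((mem_maximalIdeal_iff_constantCoeff a).mp ha)) k
          exact hle (Ideal.mem_map_of_mem _ (hy1 i))
        have hle : (maximalIdeal 𝒪 ^ k).map (algebraMap 𝒪 R) ≤ maximalIdeal R ^ k := by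
          rw [Ideal.map_pow]
          refine Ideal.pow_right_mono (Ideal.map_le_iff_le_comap.mpr fun a ha => ?_) k
          have h5 := hψ n 1 (algebraMap 𝒪 Λ[r] a) (by
            rw [pow_one, mem_maximalIdeal_iff_constantCoeff]
            simpa [MvPowerSeries.algebraMap_apply] using ha)
          simpa using h5
        exact hle (Ideal.mem_map_of_mem _ h4)
      have h4 : ((L n).lev.ψ f - ψv f) • πv c ∈ maximalIdeal R ^ k • (⊤ : Submodule R M) :=
        Submodule.smul_mem_smul h1 trivial
      rw [map_sub] at h3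
      convert sub_mem h4 h3 using 1
      rw [sub_smul, ← h2]
      change πv (act L f c) - ψv f • πv c = _
      abel
    rw [Ideal.iInf_pow_smul_eq_bot_of_isLocalRing _ (Ideal.IsPrime.ne_top inferInstance),
      Submodule.mem_bot, sub_eq_zero] at this
    exact this
  let : Module Λ[r] (PatchModule 𝒪 r d) := Module.compHom _ T
  refine ⟨{ N := PatchModule 𝒪 r d
            φ := φ
            ψ := ψ
            ψ_surjective := hψ_surj
            ψ_φ_X := hψφ
            π := πv
            π_smul := hπsmul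
            π_surjective := hπ_surj
            ker_π := ?_
            d := d
            b := fun i => Pi.single i 1
            b_span := ?_
            b_rel := ?_ }⟩
  · intro c
    constructor
    · intro h
      have h' : (∑ i, algebraMap 𝒪 R (constantCoeff (c i)) • e i) = 0 := h
      have h0 := he (show (fun a : Fin d → 𝒪 => ∑ i, algebraMap 𝒪 R (a i) • e i)
        (fun i => constantCoeff (c i)) = (fun a : Fin d → 𝒪 =>
          ∑ i, algebraMap 𝒪 R (a i) • e i) 0 by simpa using h')
      have hc : c = ∑ i, act L (φ (c i)) (Pi.single i 1) := by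
        simp only [hTφ]; exact pi_eq_sum_univ' c
      show (c : PatchModule 𝒪 r d) ∈ _
      rw [hc]
      refine Submodule.sum_mem _ fun i _ => Submodule.smul_mem_smul (M := PatchModule 𝒪 r d) ?_ trivial
      have h1 := Ideal.mem_map_of_mem φ
        (mem_span_X_of_constantCoeff_eq_zero (congrFun h0 i))
      rwa [Ideal.map_span, ← Set.range_comp] at h1
    · intro h
      refine Submodule.smul_induction_on (M := PatchModule 𝒪 r d)
        (p := fun x : PatchModule 𝒪 r d => πv x = 0) h ?_ ?_
      · intro s hs x _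
        have hle : Ideal.span (Set.range fun i : Fin r => φ (X i)) ≤
            RingHom.ker (ψ : Λ[r] →+* R) :=
          Ideal.span_le.mpr (by rintro _ ⟨i, rfl⟩; exact hψφ i)
        exact (hπsmul s x).trans (by rw [show ψ s = 0 from hle hs]; exact zero_smul R _)
      · intro x y hx hy
        exact (map_add πv x y).trans ((congrArg₂ (· + ·) hx hy).trans (add_zero 0))
  · intro c
    refine ⟨c, ?_⟩
    change c = ∑ i, act L (φ (c i)) (Pi.single i 1)
    simp only [hTφ]
    exact pi_eq_sum_univ' c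
  · intro c
    change ∑ i, act L (φ (c i)) (Pi.single i 1) = 0 ↔ _
    simp only [hTφ, Submodule.mem_bot]
    refine Iff.trans (Eq.to_iff ?_) funext_iff
    congr 1
    exact (pi_eq_sum_univ' c).symm

end Fermat.Agent.Patching
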