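import Fermat.Agent.Patching.Limit
import Fermat.Agent.S57

/-! Patching: the patched module is free and faithful over `R`. -/

set_option autoImplicit false

namespace Fermat.Agent.Patching

open IsLocalRing

/-- A patching datum over a complete DVR with finite residue field of characteristic `ℓ` makes `M`
free and faithful over `R`. -/
theorem free_and_annihilator_eq_bot {𝒪 : Type} [CommRing 𝒪] [IsDomain 𝒪]
    [IsDiscreteValuationRing 𝒪] [IsAdicComplete (maximalIdeal 𝒪) 𝒪] [Finite (ResidueField 𝒪)]
    {ℓ r : ℕ} (hℓ : (ℓ : 𝒪) ∈ maximalIdeal 𝒪) {R : Type} [CommRing R] [Algebra 𝒪 R]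
    {M : Type} [AddCommGroup M] [Module R M] [Nontrivial M]
    (D : Algebra.PatchingDatum 𝒪 ℓ r R M) :
    Module.Free R M ∧ Module.annihilator R M = ⊥ := by
  have : Nontrivial R := Module.nontrivial R M
  obtain ⟨L⟩ := nonempty_patchingLevel_bot hℓ D
  exact ⟨(Fermat.Agent.S57.result L).1, (Fermat.Agent.S57.result L).2.1⟩

/-- If every element killing `M` must vanish, a surjection out of `R` through which the action
factors is injective: this is the `R = T` conclusion. -/
theorem injective_of_factorsThrough {𝒪 : Type} [CommRing 𝒪] [IsDomain 𝒪]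
    [IsDiscreteValuationRing 𝒪] [IsAdicComplete (maximalIdeal 𝒪) 𝒪] [Finite (ResidueField 𝒪)]
    {ℓ r : ℕ} (hℓ : (ℓ : 𝒪) ∈ maximalIdeal 𝒪) {R : Type} [CommRing R] [Algebra 𝒪 R]
    {M : Type} [AddCommGroup M] [Module R M] [Nontrivial M]
    (D : Algebra.PatchingDatum 𝒪 ℓ r R M) {T : Type} [CommRing T] [Module T M] (φ : R →+* T)
    (h : ∀ (x : R) (m : M), x • m = φ x • m) : Function.Injective φ := by
  rw [injective_iff_map_eq_zero]
  intro x hx
  have hmem : x ∈ Module.annihilator R M :=
    Module.mem_annihilator.mpr fun m => by rw [h, hx, zero_smul]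
  rwa [(free_and_annihilator_eq_bot hℓ D).2, Ideal.mem_bot] at hmem

end Fermat.Agent.Patching
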